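import Mathlib

set_option autoImplicit false

namespace Fermat.Agent.S22

/-- The `ℤ`-subalgebra of endomorphisms whose transpose preserves a given lattice of functionals. -/
def stabAlg {V : Type*} [AddCommGroup V] [Module ℂ V] (Λ : Submodule ℤ (Module.Dual ℂ V)) :
    Subalgebra ℤ (Module.End ℂ V) where
  carrier := {T | ∀ l ∈ Λ, l ∘ₗ T ∈ Λ}
  mul_mem' := by
    intro a b ha hb l hl
    have := hb _ (ha l hl)
    simpa [LinearMap.comp_assoc, Module.End.mul_eq_comp] using this
  add_mem' := by
    intro a b ha hb l hl
    rw [LinearMap.comp_add]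
    exact Λ.add_mem (ha l hl) (hb l hl)
  algebraMap_mem' := by
    intro r l hl
    have : l ∘ₗ (algebraMap ℤ (Module.End ℂ V) r) = r • l := by
      ext v
      simp [Algebra.algebraMap_eq_smul_one]
    rw [this]
    exact Λ.smul_mem r hl

/-- Abstract core: a set of endomorphisms whose transposes preserve a finitely generated
point-separating lattice of functionals generates a finite `ℤ`-algebra. -/
theorem finite_adjoin_of_lattice {V : Type*} [AddCommGroup V] [Module ℂ V]
    (G : Set (Module.End ℂ V)) (Λ : Submodule ℤ (Module.Dual ℂ V)) (hfg : Λ.FG)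
    (hsep : ∀ v : V, (∀ l ∈ Λ, l v = 0) → v = 0)
    (hstab : ∀ T ∈ G, ∀ l ∈ Λ, l ∘ₗ T ∈ Λ) :
    Module.Finite ℤ (Algebra.adjoin ℤ G) := by
  haveI : Module.Finite ℤ Λ := Module.Finite.iff_fg.mpr hfg
  have hle : Algebra.adjoin ℤ G ≤ stabAlg Λ := Algebra.adjoin_le hstab
  let Φ : (Algebra.adjoin ℤ G) →ₗ[ℤ] (Λ →ₗ[ℤ] Λ) :=
    { toFun := fun T =>
        { toFun := fun l => ⟨(l : Module.Dual ℂ V) ∘ₗ (T : Module.End ℂ V), hle T.2 _ l.2⟩
          map_add' := by
            intro a b
            ext v
            simp
          map_smul' := by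
            intro r a
            ext v
            simp }
      map_add' := by
        intro a b
        ext l v
        simp
      map_smul' := by
        intro r a
        ext l v
        simp }
  have hinj : Function.Injective Φ := by
    rw [injective_iff_map_eq_zero]
    intro T hT
    apply Subtype.ext
    ext v
    apply hsep
    intro l hl
    have := congrArg (fun (φ : Λ →ₗ[ℤ] Λ) => ((φ ⟨l, hl⟩ : Λ) : Module.Dual ℂ V) v) hT
    simpa [Φ] using this
  exact Module.Finite.of_injective Φ hinj

end Fermat.Agent.S22
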