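import Mathlib

set_option autoImplicit false

open UpperHalfPlane hiding I
open Function Complex Filter
open scoped Manifold Real

namespace Fermat.Agent.S22

local notation "𝕢" => Function.Periodic.qParam

/-- Holomorphic periodic functions on the upper half plane vanishing at `i∞`. -/
structure CuspLike (h : ℝ) (F : ℍ → ℂ) : Prop where
  pos : 0 < h
  per : Function.Periodic (F ∘ ofComplex) h
  hol : MDiff F
  zero : IsZeroAtImInfty F

namespace CuspLike

variable {h : ℝ} {F : ℍ → ℂ}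

theorem bdd (hF : CuspLike h F) : IsBoundedAtImInfty F := hF.zero.isBoundedAtImInfty

theorem analytic (hF : CuspLike h F) : AnalyticAt ℂ (cuspFunction h F) 0 :=
  analyticAt_cuspFunction_zero hF.pos hF.per hF.hol hF.bdd

theorem coeff_zero (hF : CuspLike h F) : (qExpansion h F).coeff 0 = 0 := by
  rw [qExpansion_coeff_zero hF.pos hF.analytic hF.per, hF.zero.valueAtInfty_eq_zero]

end CuspLike

/-- The frequency `2 π i m / h`. -/
noncomputable def freq (h : ℝ) (m : ℕ) : ℂ := 2 * π * I * m / h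

/-- Coefficients of the `j`-fold Eichler integral. -/
noncomputable def eCoeff (h : ℝ) (F : ℍ → ℂ) (j m : ℕ) : ℂ :=
  (qExpansion h F).coeff m / freq h m ^ j

/-- The `j`-fold Eichler integral, as a function on `ℂ` (junk outside the upper half plane). -/
noncomputable def eichler (h : ℝ) (F : ℍ → ℂ) (j : ℕ) (z : ℂ) : ℂ :=
  ∑' m : ℕ, eCoeff h F j m * 𝕢 h z ^ m

theorem freq_ne_zero {h : ℝ} (hh : 0 < h) {m : ℕ} (hm : m ≠ 0) : freq h m ≠ 0 := by
  unfold freq
  have h1 : (h : ℂ) ≠ 0 := by exact_mod_cast hh.ne'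
  have h2 : (m : ℂ) ≠ 0 := by exact_mod_cast hm
  have h3 : (π : ℂ) ≠ 0 := by exact_mod_cast Real.pi_ne_zero
  simp [h1, h2, h3, I_ne_zero]

theorem norm_freq (h : ℝ) (hh : 0 < h) (m : ℕ) : ‖freq h m‖ = 2 * π * m / h := by
  unfold freq
  simp [abs_of_pos hh, abs_of_pos Real.pi_pos]

theorem hasDerivAt_qParam_pow (h : ℝ) (m : ℕ) (z : ℂ) :
    HasDerivAt (fun z => 𝕢 h z ^ m) (freq h m * 𝕢 h z ^ m) z := by
  have h1 : HasDerivAt (fun z : ℂ => 𝕢 h z) (𝕢 h z * (2 * π * I / h)) z := by
    unfold Function.Periodic.qParam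
    have : HasDerivAt (fun z : ℂ => 2 * π * I * z / h) (2 * π * I / h) z := by
      simpa using ((hasDerivAt_id z).const_mul (2 * π * I)).div_const (h : ℂ)
    exact this.cexp
  have h2 := h1.fun_pow m
  have e : freq h m * 𝕢 h z ^ m = ↑m * 𝕢 h z ^ (m - 1) * (𝕢 h z * (2 * ↑π * I / ↑h)) := by
    rcases Nat.eq_zero_or_pos m with rfl | hm
    · simp [freq]
    · have : 𝕢 h z ^ m = 𝕢 h z ^ (m - 1) * 𝕢 h z := by
        rw [← pow_succ]
        congr 1
        omega
      rw [this]
      unfold freq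
      ring
  rw [e]
  exact h2

variable {h : ℝ} {F : ℍ → ℂ}

theorem eCoeff_zero_right (hF : CuspLike h F) (j : ℕ) : eCoeff h F j 0 = 0 := by
  unfold eCoeff
  rw [hF.coeff_zero, zero_div]

theorem eCoeff_succ_mul (hF : CuspLike h F) (j m : ℕ) :
    eCoeff h F (j + 1) m * freq h m = eCoeff h F j m := by
  rcases Nat.eq_zero_or_pos m with rfl | hm
  · rw [eCoeff_zero_right hF, eCoeff_zero_right hF, zero_mul]
  · unfold eCoeff
    have := freq_ne_zero hF.pos hm.ne'
    field_simp
    ring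

theorem norm_eCoeff_le (hF : CuspLike h F) (j m : ℕ) :
    ‖eCoeff h F j m‖ ≤ (h / (2 * π)) ^ j * ‖(qExpansion h F).coeff m‖ := by
  rcases Nat.eq_zero_or_pos m with rfl | hm
  · rw [eCoeff_zero_right hF, hF.coeff_zero]
    simp
  · unfold eCoeff
    rw [norm_div, norm_pow, norm_freq h hF.pos, div_eq_inv_mul]
    apply mul_le_mul_of_nonneg_right _ (norm_nonneg _)
    rw [← inv_pow]
    have hpos := hF.pos
    have hpi := Real.pi_pos
    have hm1 : (1 : ℝ) ≤ m := by exact_mod_cast hm
    apply pow_le_pow_left₀ (by positivity)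
    rw [inv_div]
    apply div_le_div_of_nonneg_left hpos.le (by positivity)
    nlinarith

theorem summable_bound (hF : CuspLike h F) (j : ℕ) {r : ℝ} (hr0 : 0 ≤ r) (hr : r < 1) :
    Summable fun m : ℕ => (h / (2 * π)) ^ j * ‖(qExpansion h F).coeff m‖ * r ^ m := by
  have h1 := (hasSum_qExpansion_of_norm_lt hF.pos hF.per hF.hol hF.bdd (q := (r : ℂ))
    (by simpa [abs_of_nonneg hr0] using hr)).summable.norm
  have h2 := h1.mul_left ((h / (2 * π)) ^ j)
  refine h2.congr fun m => ?_
  simp [abs_of_nonneg hr0, mul_assoc]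

theorem norm_term_le (hF : CuspLike h F) (j m : ℕ) {δ : ℝ} {z : ℂ} (hz : δ ≤ z.im) :
    ‖eCoeff h F j m * 𝕢 h z ^ m‖ ≤
      (h / (2 * π)) ^ j * ‖(qExpansion h F).coeff m‖ * (Real.exp (-2 * π * δ / h)) ^ m := by
  rw [norm_mul, norm_pow, Function.Periodic.norm_qParam]
  apply mul_le_mul (norm_eCoeff_le hF j m) _ (by positivity)
    (by have := hF.pos; have := Real.pi_pos; positivity)
  apply pow_le_pow_left₀ (Real.exp_pos _).le
  apply Real.exp_le_exp.mpr
  have hpos := hF.pos
  have hpi := Real.pi_pos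
  apply div_le_div_of_nonneg_right _ hpos.le
  nlinarith

theorem exp_lt_one (hh : 0 < h) {δ : ℝ} (hδ : 0 < δ) : Real.exp (-2 * π * δ / h) < 1 := by
  rw [Real.exp_lt_one_iff]
  have hpi := Real.pi_pos
  apply div_neg_of_neg_of_pos _ hh
  nlinarith

theorem summable_term (hF : CuspLike h F) (j : ℕ) {z : ℂ} (hz : 0 < z.im) :
    Summable fun m : ℕ => eCoeff h F j m * 𝕢 h z ^ m :=
  Summable.of_norm_bounded
    (summable_bound hF j (Real.exp_pos _).le (exp_lt_one hF.pos hz))
    fun m => norm_term_le hF j m le_rfl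

theorem hasSum_eichler (hF : CuspLike h F) (j : ℕ) {z : ℂ} (hz : 0 < z.im) :
    HasSum (fun m : ℕ => eCoeff h F j m * 𝕢 h z ^ m) (eichler h F j z) :=
  (summable_term hF j hz).hasSum

theorem hasDerivAt_eichler (hF : CuspLike h F) (j : ℕ) {z : ℂ} (hz : 0 < z.im) :
    HasDerivAt (eichler h F (j + 1)) (eichler h F j z) z := by
  set δ := z.im / 2 with hδ
  have hδpos : 0 < δ := by positivity
  have hzδ : z ∈ {w : ℂ | δ < w.im} := by
    show δ < z.im
    rw [hδ]; linarith
  have key := hasDerivAt_tsum_of_isPreconnected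
    (u := fun m : ℕ => (h / (2 * π)) ^ j * ‖(qExpansion h F).coeff m‖ *
      (Real.exp (-2 * π * δ / h)) ^ m)
    (g := fun (m : ℕ) (w : ℂ) => eCoeff h F (j + 1) m * 𝕢 h w ^ m)
    (g' := fun (m : ℕ) (w : ℂ) => eCoeff h F j m * 𝕢 h w ^ m)
    (t := {w : ℂ | δ < w.im}) (y₀ := z) (y := z)
    (summable_bound hF j (Real.exp_pos _).le (exp_lt_one hF.pos hδpos))
    (isOpen_lt continuous_const Complex.continuous_im)
    (convex_halfSpace_im_gt δ).isPreconnected
    (fun m w _ => by
      have h1 := (hasDerivAt_qParam_pow h m w).const_mul (eCoeff h F (j + 1) m)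
      rwa [← mul_assoc, eCoeff_succ_mul hF] at h1)
    (fun m w hw => norm_term_le hF j m (le_of_lt hw))
    hzδ (summable_term hF (j + 1) hz) hzδ
  exact key

theorem eichler_zero (hF : CuspLike h F) (τ : ℍ) : eichler h F 0 τ = F τ := by
  have h1 := hasSum_qExpansion hF.pos hF.per hF.hol hF.bdd τ
  have h2 := hasSum_eichler hF 0 τ.im_pos
  refine h2.unique ?_
  convert h1 using 2 with m
  simp [eCoeff]

/-- The Eichler integral as a function on the upper half plane. -/
noncomputable def eichlerH (h : ℝ) (F : ℍ → ℂ) (j : ℕ) : ℍ → ℂ := fun τ => eichler h F j τ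

theorem hasSum_eichlerH (hF : CuspLike h F) (j : ℕ) (τ : ℍ) :
    HasSum (fun m : ℕ => eCoeff h F j m • 𝕢 h τ ^ m) (eichlerH h F j τ) :=
  hasSum_eichler hF j τ.im_pos

theorem eichlerH_bdd (hF : CuspLike h F) (j : ℕ) : IsBoundedAtImInfty (eichlerH h F j) :=
  isBoundedAtImInfty_of_hasSum_qExpansion hF.pos (hasSum_eichlerH hF j)

theorem eichler_add_period (hh : h ≠ 0) (j : ℕ) (z : ℂ) :
    eichler h F j (z + h) = eichler h F j z := by
  have h1 : 𝕢 h (z + h) = 𝕢 h z := by
    unfold Function.Periodic.qParam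
    have h2 : 2 * π * I * (z + h) / h = 2 * π * I * z / h + 2 * π * I := by
      have : (h : ℂ) ≠ 0 := by exact_mod_cast hh
      field_simp
    rw [h2, Complex.exp_add, Complex.exp_two_pi_mul_I, mul_one]
  unfold eichler
  rw [h1]

theorem eichlerH_per (hF : CuspLike h F) (j : ℕ) :
    Function.Periodic (eichlerH h F j ∘ ofComplex) h := by
  intro w
  by_cases hw : 0 < im w
  · have hw' : 0 < im (w + h) := by simp [hw]
    simp only [comp_apply, ofComplex_apply_of_im_pos hw', ofComplex_apply_of_im_pos hw, eichlerH]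
    exact eichler_add_period hF.pos.ne' j w
  · have hw0 : im w ≤ 0 := not_lt.mp hw
    have hw' : im (w + h) ≤ 0 := by simpa using hw0
    simp [ofComplex_apply_of_im_nonpos hw', ofComplex_apply_of_im_nonpos hw0]

theorem eichlerH_zero (hF : CuspLike h F) : eichlerH h F 0 = F :=
  funext fun τ => eichler_zero hF τ

theorem eichlerH_hol (hF : CuspLike h F) (j : ℕ) : MDiff (eichlerH h F j) := by
  rcases j with _ | j
  · rw [eichlerH_zero hF]
    exact hF.hol
  · rw [UpperHalfPlane.mdifferentiable_iff]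
    have h1 : DifferentiableOn ℂ (eichler h F (j + 1)) {z | 0 < z.im} := fun z hz =>
      (hasDerivAt_eichler hF j hz).differentiableAt.differentiableWithinAt
    refine h1.congr fun z hz => ?_
    simp only [comp_apply, eichlerH, ofComplex_apply_of_im_pos hz]

theorem qExpansion_coeff_unique' {f : ℍ → ℂ} {c : ℕ → ℂ} (hh : 0 < h)
    (hfanalytic : AnalyticAt ℂ (cuspFunction h f) 0)
    (hf : ∀ τ : ℍ, HasSum (fun m ↦ c m • 𝕢 h τ ^ m) (f τ)) (m : ℕ) :
    c m = (qExpansion h f).coeff m := by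
  have h1 := (hasFPowerSeriesOnBall_cuspFunction hh hfanalytic hf).hasFPowerSeriesAt
  have h2 : HasFPowerSeriesAt (cuspFunction h f)
      (FormalMultilinearSeries.ofScalars ℂ fun m ↦ (qExpansion h f).coeff m) 0 := by
    simpa [qExpansion_coeff, div_eq_mul_inv, mul_comm]
      using hfanalytic.hasFPowerSeriesAt
  simpa [FormalMultilinearSeries.coeff_ofScalars] using
    congr_arg (FormalMultilinearSeries.coeff · m) (h1.eq_formalMultilinearSeries h2)

theorem qExpansion_eichlerH (hF : CuspLike h F) (j m : ℕ) :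
    (qExpansion h (eichlerH h F j)).coeff m = eCoeff h F j m :=
  (qExpansion_coeff_unique' (c := eCoeff h F j) hF.pos
    (analyticAt_cuspFunction_zero hF.pos (eichlerH_per hF j) (eichlerH_hol hF j)
      (eichlerH_bdd hF j)) (hasSum_eichlerH hF j) m).symm

theorem eichler_add {G : ℍ → ℂ} (hF : CuspLike h F) (hG : CuspLike h G) (j : ℕ) {z : ℂ}
    (hz : 0 < z.im) : eichler h (F + G) j z = eichler h F j z + eichler h G j z := by
  have h1 := (hasSum_eichler hF j hz).add (hasSum_eichler hG j hz)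
  rw [← h1.tsum_eq]
  unfold eichler
  congr 1
  funext m
  unfold eCoeff
  rw [qExpansion_add hF.analytic hG.analytic, map_add]
  ring

theorem eichler_smul (hF : CuspLike h F) (c : ℂ) (j : ℕ) (z : ℂ) :
    eichler h (c • F) j z = c * eichler h F j z := by
  unfold eichler
  rw [← tsum_mul_left]
  congr 1
  funext m
  unfold eCoeff
  rw [qExpansion_smul hF.analytic]
  simp only [map_smul, smul_eq_mul]
  ring

theorem eichler_eq_zero_of_const (hF : CuspLike h F) (j : ℕ) (c : ℂ)
    (hc : ∀ τ : ℍ, eichler h F (j + 1) τ = c) (τ : ℍ) : eichler h F j τ = 0 := by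
  have h1 := hasDerivAt_eichler hF j τ.im_pos
  have h2 : eichler h F (j + 1) =ᶠ[nhds (τ : ℂ)] fun _ => c := by
    filter_upwards [isOpen_upperHalfPlaneSet.mem_nhds τ.im_pos] with z hz
    exact hc ⟨z, hz⟩
  have h3 : HasDerivAt (eichler h F (j + 1)) 0 (τ : ℂ) :=
    (hasDerivAt_const (τ : ℂ) c).congr_of_eventuallyEq h2
  exact h1.unique h3

theorem eq_zero_of_eichler_const (hF : CuspLike h F) (j : ℕ) :
    ∀ c : ℂ, (∀ τ : ℍ, eichler h F (j + 1) τ = c) → ∀ τ : ℍ, F τ = 0 := by
  induction j with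
  | zero =>
    intro c hc τ
    rw [← eichler_zero hF τ]
    exact eichler_eq_zero_of_const hF 0 c hc τ
  | succ j ih =>
    intro c hc
    exact ih 0 (eichler_eq_zero_of_const hF (j + 1) c hc)

end Fermat.Agent.S22
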