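import Mathlib
import Fermat.Agent.S22.Analysis

set_option autoImplicit false

open UpperHalfPlane hiding I
open Function Complex Filter Finset
open scoped Manifold Real MatrixGroups ModularForm

namespace Fermat.Agent.S22

/-- Telescoping derivative computation. -/
theorem hasDerivAt_telescope (A : ℂ → ℂ) (B μ u : ℂ) (hA : HasDerivAt A (-(B * μ)) u) (w : ℕ) :
    ∀ e : ℕ → ℂ → ℂ, (∀ j, HasDerivAt (e (j + 1)) (μ * e j u) u) →
      HasDerivAt (fun v => ∑ j ∈ range (w + 1),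
        e (j + 1) v * A v ^ (w - j) * B ^ j / ((w - j).factorial : ℂ))
        (μ * e 0 u * A u ^ w / (w.factorial : ℂ)) u := by
  induction w with
  | zero =>
    intro e he
    simpa using he 0
  | succ w ih =>
    intro e he
    have h1 := ih (fun j => e (j + 1)) (fun j => he (j + 1))
    have h2 : HasDerivAt (fun v => e 1 v * A v ^ (w + 1) / ((w + 1).factorial : ℂ))
        ((μ * e 0 u * A u ^ (w + 1) + e 1 u * (((w + 1 : ℕ) : ℂ) * A u ^ w * -(B * μ))) /
          ((w + 1).factorial : ℂ)) u := by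
      have := ((he 0).mul (hA.fun_pow (w + 1))).div_const ((w + 1).factorial : ℂ)
      simpa using this
    have h3 := h2.add (h1.const_mul B)
    refine (h3.congr_deriv ?_).congr_of_eventuallyEq (Eventually.of_forall fun v => ?_)
    · have hf : ((w + 1).factorial : ℂ) = ((w + 1 : ℕ) : ℂ) * (w.factorial : ℂ) := by
        rw [Nat.factorial_succ]; push_cast; ring
      have h4 : ((w + 1 : ℕ) : ℂ) ≠ 0 := by exact_mod_cast Nat.succ_ne_zero w
      have h5 : (w.factorial : ℂ) ≠ 0 := by exact_mod_cast Nat.factorial_ne_zero w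
      rw [hf]
      field_simp
      ring
    · simp only [Pi.add_apply]
      rw [Finset.sum_range_succ', Finset.mul_sum, add_comm]
      congr 1
      · simp
      · apply Finset.sum_congr rfl
        intro j _
        rw [Nat.add_sub_add_right]
        ring

variable {h h' : ℝ} {F F' : ℍ → ℂ}

/-- `ψ(z,u) = ∑_j E'_{j+1}(u) (z-u)^{w-j} / (w-j)!`. -/
noncomputable def psiFun (h' : ℝ) (F' : ℍ → ℂ) (w : ℕ) (z u : ℂ) : ℂ :=
  ∑ j ∈ range (w + 1),
    eichler h' F' (j + 1) u * (z - u) ^ (w - j) * (1 : ℂ) ^ j / ((w - j).factorial : ℂ)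

/-- `ξ(z,u) = ∑_j E_{j+1}(g u) (num g z - denom g z * g u)^{w-j} (denom g z)^j / (w-j)!`. -/
noncomputable def xiFun (h : ℝ) (F : ℍ → ℂ) (g : GL (Fin 2) ℝ) (w : ℕ) (z u : ℂ) : ℂ :=
  ∑ j ∈ range (w + 1),
    eichler h F (j + 1) ↑(g • ofComplex u) * (num g z - denom g z * ↑(g • ofComplex u)) ^ (w - j) *
      (denom g z) ^ j / ((w - j).factorial : ℂ)

theorem hasDerivAt_psiFun (hF' : CuspLike h' F') (w : ℕ) (z : ℂ) (τ : ℍ) :
    HasDerivAt (psiFun h' F' w z) (F' τ * (z - τ) ^ w / (w.factorial : ℂ)) (τ : ℂ) := by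
  have hA : HasDerivAt (fun v : ℂ => z - v) (-((1 : ℂ) * 1)) (τ : ℂ) := by
    simpa using (hasDerivAt_id (τ : ℂ)).const_sub z
  have key := hasDerivAt_telescope (fun v : ℂ => z - v) 1 1 (τ : ℂ) hA w
    (fun j => eichler h' F' j) (fun j => by
      simpa using hasDerivAt_eichler hF' j τ.im_pos)
  rw [one_mul, eichler_zero hF' τ] at key
  exact key

theorem hasDerivAt_xiFun (hF : CuspLike h F) (g : GL (Fin 2) ℝ) (hg : g.val.det = 1) (w : ℕ)
    (z : ℂ) (τ : ℍ) :
    HasDerivAt (xiFun h F g w z)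
      (F (g • τ) * (denom g τ) ^ (-((w : ℤ) + 2)) * (z - τ) ^ w / (w.factorial : ℂ)) (τ : ℂ) := by
  have hgpos : 0 < g.val.det := by rw [hg]; exact one_pos
  have hd := denom_ne_zero g τ
  set μ : ℂ := 1 / denom g τ ^ 2 with hμ
  have hmob : HasDerivAt (fun v : ℂ => ((g • ofComplex v : ℍ) : ℂ)) μ (τ : ℂ) := by
    have := (hasStrictDerivAt_smul hgpos τ).hasDerivAt
    rw [hg] at this
    simpa [hμ] using this
  have hA : HasDerivAt (fun v : ℂ => num g z - denom g z * ((g • ofComplex v : ℍ) : ℂ))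
      (-(denom g z * μ)) (τ : ℂ) := by
    simpa using (hmob.const_mul (denom g z)).const_sub (num g z)
  have key := hasDerivAt_telescope
    (fun v : ℂ => num g z - denom g z * ((g • ofComplex v : ℍ) : ℂ)) (denom g z) μ (τ : ℂ) hA w
    (fun j v => eichler h F j ((g • ofComplex v : ℍ) : ℂ)) (fun j => by
      have h1 : HasDerivAt (eichler h F (j + 1))
          (eichler h F j ((g • ofComplex (τ : ℂ) : ℍ) : ℂ)) ((g • ofComplex (τ : ℂ) : ℍ) : ℂ) :=
        hasDerivAt_eichler hF j (g • ofComplex (τ : ℂ) : ℍ).im_pos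
      have h2 := h1.comp (τ : ℂ) hmob
      rw [mul_comm] at h2
      exact h2)
  refine key.congr_deriv ?_
  simp only [ofComplex_apply]
  rw [eichler_zero hF (g • τ), coe_smul_of_det_pos hgpos τ]
  have hnum : num g z - denom g z * (num g τ / denom g τ) = (z - τ) / denom g τ := by
    have hdet : ((g 0 0 : ℝ) : ℂ) * (g 1 1 : ℝ) - (g 0 1 : ℝ) * (g 1 0 : ℝ) = 1 := by
      have := hg
      rw [Matrix.det_fin_two] at this
      exact_mod_cast this
    field_simp
    simp only [num, denom]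
    linear_combination (z - τ) * hdet
  rw [hnum, hμ, div_pow, neg_add, zpow_add₀ hd, zpow_neg, zpow_natCast]
  have : (denom g τ) ^ (-2 : ℤ) = 1 / denom g τ ^ 2 := by
    rw [zpow_neg]; norm_cast; simp
  rw [this]
  field_simp

theorem slash_apply_of_det_one (G : ℍ → ℂ) (k : ℤ) (g : GL (Fin 2) ℝ) (hg : g.val.det = 1)
    (τ : ℍ) : (G ∣[k] g) τ = G (g • τ) * denom g τ ^ (-k) := by
  have hdet : g.det.val = 1 := by rw [Matrix.GeneralLinearGroup.val_det_apply, hg]
  rw [ModularForm.slash_apply, hdet]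
  have hσ : σ g = .refl ℝ ℂ := by
    rw [σ, if_pos (by rw [hdet]; exact one_pos)]
  rw [hσ]
  simp

theorem psi_sub_xi_const (hF : CuspLike h F) (hF' : CuspLike h' F') (g : GL (Fin 2) ℝ)
    (hg : g.val.det = 1) (w : ℕ) (hFF' : F' = F ∣[((w : ℤ) + 2)] g) (z : ℂ) (τ τ' : ℍ) :
    psiFun h' F' w z τ - xiFun h F g w z τ = psiFun h' F' w z τ' - xiFun h F g w z τ' := by
  have hD : ∀ u : ℍ, HasDerivAt (fun v => psiFun h' F' w z v - xiFun h F g w z v) 0 (u : ℂ) := by
    intro u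
    have h1 := (hasDerivAt_psiFun hF' w z u).sub (hasDerivAt_xiFun hF g hg w z u)
    refine h1.congr_deriv ?_
    rw [hFF', slash_apply_of_det_one F _ g hg u, sub_self]
  exact IsOpen.is_const_of_deriv_eq_zero isOpen_upperHalfPlaneSet
    (convex_halfSpace_im_gt 0).isPreconnected
    (fun u hu => (hD ⟨u, hu⟩).differentiableAt.differentiableWithinAt)
    (fun u hu => (hD ⟨u, hu⟩).deriv) τ.im_pos τ'.im_pos

theorem psiFun_diag (w : ℕ) (z : ℂ) : psiFun h' F' w z z = eichler h' F' (w + 1) z := by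
  unfold psiFun
  rw [Finset.sum_eq_single w]
  · simp
  · intro j hj hjw
    have : w - j ≠ 0 := by
      have := Finset.mem_range.mp hj
      omega
    simp [this]
  · intro hw
    exact absurd (Finset.mem_range.mpr (Nat.lt_succ_self w)) hw

theorem xiFun_diag (g : GL (Fin 2) ℝ) (hg : g.val.det = 1) (w : ℕ) (τ : ℍ) :
    xiFun h F g w τ τ = eichler h F (w + 1) ↑(g • τ) * denom g τ ^ w := by
  have hgpos : 0 < g.val.det := by rw [hg]; exact one_pos
  have hd := denom_ne_zero g τ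
  have h0 : num g τ - denom g τ * ((g • τ : ℍ) : ℂ) = 0 := by
    rw [coe_smul_of_det_pos hgpos τ]
    field_simp
    ring
  unfold xiFun
  simp only [ofComplex_apply]
  rw [Finset.sum_eq_single w]
  · simp
  · intro j hj hjw
    have : w - j ≠ 0 := by
      have := Finset.mem_range.mp hj
      omega
    simp [this, h0]
  · intro hw
    exact absurd (Finset.mem_range.mpr (Nat.lt_succ_self w)) hw

/-- The period function is given by the explicit polynomial expression `ψ - ξ`. -/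
theorem period_eq (hF : CuspLike h F) (hF' : CuspLike h' F') (g : GL (Fin 2) ℝ)
    (hg : g.val.det = 1) (w : ℕ) (hFF' : F' = F ∣[((w : ℤ) + 2)] g) (u0 τ : ℍ) :
    eichlerH h' F' (w + 1) τ - (eichlerH h F (w + 1) ∣[-(w : ℤ)] g) τ =
      psiFun h' F' w τ u0 - xiFun h F g w τ u0 := by
  rw [← psi_sub_xi_const hF hF' g hg w hFF' τ τ u0, psiFun_diag, xiFun_diag g hg,
    slash_apply_of_det_one _ _ g hg]
  simp [eichlerH]

open Polynomial in
/-- Polynomial version of `psiFun`. -/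
noncomputable def psiPoly (h' : ℝ) (F' : ℍ → ℂ) (w : ℕ) (u : ℂ) : Polynomial ℂ :=
  ∑ j ∈ range (w + 1),
    C (eichler h' F' (j + 1) u / ((w - j).factorial : ℂ)) * (X - C u) ^ (w - j)

open Polynomial in
/-- Polynomial version of `xiFun`. -/
noncomputable def xiPoly (h : ℝ) (F : ℍ → ℂ) (g : GL (Fin 2) ℝ) (w : ℕ) (u : ℍ) : Polynomial ℂ :=
  ∑ j ∈ range (w + 1),
    C (eichler h F (j + 1) ↑(g • u) / ((w - j).factorial : ℂ)) *
      (((C ((g 0 0 : ℝ) : ℂ) * X + C ((g 0 1 : ℝ) : ℂ)) -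
        (C ((g 1 0 : ℝ) : ℂ) * X + C ((g 1 1 : ℝ) : ℂ)) * C ((g • u : ℍ) : ℂ)) ^ (w - j) *
        (C ((g 1 0 : ℝ) : ℂ) * X + C ((g 1 1 : ℝ) : ℂ)) ^ j)

theorem eval_psiPoly (w : ℕ) (u z : ℂ) : (psiPoly h' F' w u).eval z = psiFun h' F' w z u := by
  unfold psiPoly psiFun
  rw [Polynomial.eval_finsetSum]
  apply Finset.sum_congr rfl
  intro j _
  simp
  ring

theorem eval_xiPoly (g : GL (Fin 2) ℝ) (w : ℕ) (u : ℍ) (z : ℂ) :
    (xiPoly h F g w u).eval z = xiFun h F g w z u := by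
  unfold xiPoly xiFun
  rw [Polynomial.eval_finsetSum]
  apply Finset.sum_congr rfl
  intro j _
  simp [num, denom]
  ring

open Polynomial in
theorem natDegree_psiPoly_le (w : ℕ) (u : ℂ) : (psiPoly h' F' w u).natDegree ≤ w := by
  unfold psiPoly
  apply natDegree_sum_le_of_forall_le
  intro j _
  refine (natDegree_C_mul_le _ _).trans ?_
  refine natDegree_pow_le.trans ?_
  have : (X - C u : Polynomial ℂ).natDegree ≤ 1 := natDegree_X_sub_C_le u
  have h2 : w - j ≤ w := Nat.sub_le w j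
  nlinarith

open Polynomial in
theorem natDegree_xiPoly_le (g : GL (Fin 2) ℝ) (w : ℕ) (u : ℍ) :
    (xiPoly h F g w u).natDegree ≤ w := by
  unfold xiPoly
  apply natDegree_sum_le_of_forall_le
  intro j hj
  have hj' : j ≤ w := Nat.lt_succ_iff.mp (Finset.mem_range.mp hj)
  refine (natDegree_C_mul_le _ _).trans ?_
  refine natDegree_mul_le.trans ?_
  have h1 : (((C ((g 0 0 : ℝ) : ℂ) * X + C ((g 0 1 : ℝ) : ℂ)) -
        (C ((g 1 0 : ℝ) : ℂ) * X + C ((g 1 1 : ℝ) : ℂ)) * C ((g • u : ℍ) : ℂ)) :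
        Polynomial ℂ).natDegree ≤ 1 := by
    compute_degree
  have h2 : (C ((g 1 0 : ℝ) : ℂ) * X + C ((g 1 1 : ℝ) : ℂ) : Polynomial ℂ).natDegree ≤ 1 :=
    natDegree_linear_le
  have h3 := natDegree_pow_le (p := ((C ((g 0 0 : ℝ) : ℂ) * X + C ((g 0 1 : ℝ) : ℂ)) -
        (C ((g 1 0 : ℝ) : ℂ) * X + C ((g 1 1 : ℝ) : ℂ)) * C ((g • u : ℍ) : ℂ))) (n := w - j)
  have h4 := natDegree_pow_le (p := (C ((g 1 0 : ℝ) : ℂ) * X + C ((g 1 1 : ℝ) : ℂ) :
    Polynomial ℂ)) (n := j)
  have h5 : (w - j) * 1 + j * 1 = w := by omega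
  nlinarith

/-- The period polynomial attached to `(F, F', g)`. -/
noncomputable def periodPoly (h h' : ℝ) (F F' : ℍ → ℂ) (g : GL (Fin 2) ℝ) (w : ℕ) :
    Polynomial ℂ :=
  psiPoly h' F' w (UpperHalfPlane.I : ℍ) - xiPoly h F g w UpperHalfPlane.I

theorem natDegree_periodPoly_le (g : GL (Fin 2) ℝ) (w : ℕ) :
    (periodPoly h h' F F' g w).natDegree ≤ w :=
  (Polynomial.natDegree_sub_le _ _).trans
    (max_le (natDegree_psiPoly_le w _) (natDegree_xiPoly_le g w _))

theorem eval_periodPoly (hF : CuspLike h F) (hF' : CuspLike h' F') (g : GL (Fin 2) ℝ)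
    (hg : g.val.det = 1) (w : ℕ) (hFF' : F' = F ∣[((w : ℤ) + 2)] g) (τ : ℍ) :
    (periodPoly h h' F F' g w).eval (τ : ℂ) =
      eichlerH h' F' (w + 1) τ - (eichlerH h F (w + 1) ∣[-(w : ℤ)] g) τ := by
  rw [period_eq hF hF' g hg w hFF' UpperHalfPlane.I τ]
  unfold periodPoly
  rw [Polynomial.eval_sub, eval_psiPoly, eval_xiPoly]

section linearity

variable {G : ℍ → ℂ}

theorem psiPoly_add (hF : CuspLike h F) (hG : CuspLike h G) (w : ℕ) (u : ℍ) :
    psiPoly h (F + G) w u = psiPoly h F w u + psiPoly h G w u := by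
  unfold psiPoly
  rw [← Finset.sum_add_distrib]
  apply Finset.sum_congr rfl
  intro j _
  rw [eichler_add hF hG _ u.im_pos, add_div, Polynomial.C_add, add_mul]

theorem psiPoly_smul (hF : CuspLike h F) (c : ℂ) (w : ℕ) (u : ℂ) :
    psiPoly h (c • F) w u = Polynomial.C c * psiPoly h F w u := by
  unfold psiPoly
  rw [Finset.mul_sum]
  apply Finset.sum_congr rfl
  intro j _
  rw [eichler_smul hF, mul_div_assoc, Polynomial.C_mul, mul_assoc]

theorem xiPoly_add (hF : CuspLike h F) (hG : CuspLike h G) (g : GL (Fin 2) ℝ) (w : ℕ) (u : ℍ) :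
    xiPoly h (F + G) g w u = xiPoly h F g w u + xiPoly h G g w u := by
  unfold xiPoly
  rw [← Finset.sum_add_distrib]
  apply Finset.sum_congr rfl
  intro j _
  rw [eichler_add hF hG _ (g • u).im_pos, add_div, Polynomial.C_add, add_mul]

theorem xiPoly_smul (hF : CuspLike h F) (c : ℂ) (g : GL (Fin 2) ℝ) (w : ℕ) (u : ℍ) :
    xiPoly h (c • F) g w u = Polynomial.C c * xiPoly h F g w u := by
  unfold xiPoly
  rw [Finset.mul_sum]
  apply Finset.sum_congr rfl
  intro j _
  rw [eichler_smul hF, mul_div_assoc, Polynomial.C_mul, mul_assoc]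

theorem periodPoly_add (hF : CuspLike h F) (hG : CuspLike h G) (g : GL (Fin 2) ℝ) (w : ℕ) :
    periodPoly h h (F + G) (F + G) g w = periodPoly h h F F g w + periodPoly h h G G g w := by
  unfold periodPoly
  rw [psiPoly_add hF hG, xiPoly_add hF hG]
  ring

theorem periodPoly_smul (hF : CuspLike h F) (c : ℂ) (g : GL (Fin 2) ℝ) (w : ℕ) :
    periodPoly h h (c • F) (c • F) g w = Polynomial.C c * periodPoly h h F F g w := by
  unfold periodPoly
  rw [psiPoly_smul hF, xiPoly_smul hF]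
  ring

end linearity

end Fermat.Agent.S22
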