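import Mathlib

set_option autoImplicit false

open UpperHalfPlane hiding I
open Function Complex Filter Finset Polynomial
open scoped Manifold Real MatrixGroups ModularForm

namespace Fermat.Agent.S22

/-- Two complex polynomials agreeing on the upper half plane are equal. -/
theorem poly_eq_of_eval_uhp {P Q : ℂ[X]} (hPQ : ∀ τ : ℍ, P.eval (τ : ℂ) = Q.eval (τ : ℂ)) :
    P = Q := by
  apply Polynomial.eq_of_infinite_eval_eq P Q
  have hinj : Function.Injective (fun n : ℕ => ((n : ℂ) + Complex.I)) := by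
    intro m n hmn
    have : (m : ℂ) = n := by simpa using hmn
    exact_mod_cast this
  refine Set.infinite_of_injective_forall_mem hinj fun n => ?_
  have him : 0 < ((n : ℂ) + Complex.I).im := by simp
  exact hPQ ⟨_, him⟩

/-- The integral polynomial `(aX+b)^i (cX+d)^(w-i)`. -/
noncomputable def basePolyZ (w : ℕ) (a b c d : ℤ) (i : ℕ) : ℤ[X] :=
  (C a * X + C b) ^ i * (C c * X + C d) ^ (w - i)

/-- The weight `-w` action of an integral matrix on polynomials of degree `≤ w`
(without determinant normalisation). -/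
noncomputable def polyAct (w : ℕ) (a b c d : ℤ) (P : ℂ[X]) : ℂ[X] :=
  ∑ i ∈ range (w + 1), C (P.coeff i) * (basePolyZ w a b c d i).map (Int.castRingHom ℂ)

theorem coeff_polyAct (w : ℕ) (a b c d : ℤ) (P : ℂ[X]) (n : ℕ) :
    (polyAct w a b c d P).coeff n =
      ∑ i ∈ range (w + 1), ((basePolyZ w a b c d i).coeff n) • P.coeff i := by
  unfold polyAct
  rw [Polynomial.finsetSum_coeff]
  apply Finset.sum_congr rfl
  intro i _
  rw [Polynomial.coeff_C_mul, Polynomial.coeff_map]
  simp [mul_comm]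

theorem natDegree_basePolyZ_le (w : ℕ) (a b c d : ℤ) {i : ℕ} (hi : i ≤ w) :
    (basePolyZ w a b c d i).natDegree ≤ w := by
  unfold basePolyZ
  have h1 : ((C a * X + C b : ℤ[X]) ^ i).natDegree ≤ i := by
    refine (natDegree_pow_le).trans ?_
    have : (C a * X + C b : ℤ[X]).natDegree ≤ 1 := natDegree_linear_le
    nlinarith
  have h2 : ((C c * X + C d : ℤ[X]) ^ (w - i)).natDegree ≤ w - i := by
    refine (natDegree_pow_le).trans ?_
    have : (C c * X + C d : ℤ[X]).natDegree ≤ 1 := natDegree_linear_le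
    nlinarith
  refine natDegree_mul_le.trans ?_
  omega

theorem natDegree_polyAct_le (w : ℕ) (a b c d : ℤ) (P : ℂ[X]) :
    (polyAct w a b c d P).natDegree ≤ w := by
  unfold polyAct
  apply natDegree_sum_le_of_forall_le
  intro i hi
  refine (natDegree_C_mul_le _ _).trans ?_
  refine natDegree_map_le.trans ?_
  exact natDegree_basePolyZ_le w a b c d (Nat.lt_succ_iff.mp (Finset.mem_range.mp hi))

theorem eval_polyAct (w : ℕ) (a b c d : ℤ) (g : GL (Fin 2) ℝ)
    (hg : g.val = !![(a : ℝ), (b : ℝ); (c : ℝ), (d : ℝ)]) (hD : 0 < a * d - b * c) (P : ℂ[X])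
    (hP : P.natDegree ≤ w) (τ : ℍ) :
    (polyAct w a b c d P).eval (τ : ℂ) =
      ((a * d - b * c : ℤ) : ℂ) ^ (w + 1) *
        ((fun τ : ℍ => P.eval (τ : ℂ)) ∣[-(w : ℤ)] g) τ := by
  have hdetval : g.val.det = ((a * d - b * c : ℤ) : ℝ) := by
    rw [hg, Matrix.det_fin_two_of]; push_cast; ring
  have hdetpos : 0 < g.val.det := by rw [hdetval]; exact_mod_cast hD
  have hdet : g.det.val = ((a * d - b * c : ℤ) : ℝ) := by
    rw [Matrix.GeneralLinearGroup.val_det_apply, hdetval]
  have hσ : σ g = .refl ℝ ℂ := by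
    rw [σ, if_pos (by rw [hdet]; exact_mod_cast hD)]
  have hd := denom_ne_zero g τ
  have hnum : num g τ = (a : ℂ) * τ + b := by
    have h00 : g 0 0 = (a : ℝ) := by
      show g.val 0 0 = _
      rw [hg]; rfl
    have h01 : g 0 1 = (b : ℝ) := by
      show g.val 0 1 = _
      rw [hg]; rfl
    simp [num, h00, h01]
  have hden : denom g τ = (c : ℂ) * τ + d := by
    have h10 : g 1 0 = (c : ℝ) := by
      show g.val 1 0 = _
      rw [hg]; rfl
    have h11 : g 1 1 = (d : ℝ) := by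
      show g.val 1 1 = _
      rw [hg]; rfl
    simp [denom, h10, h11]
  have hDne : (((a * d - b * c : ℤ) : ℝ) : ℂ) ≠ 0 := by
    have : ((a * d - b * c : ℤ) : ℝ) ≠ 0 := by exact_mod_cast hD.ne'
    exact_mod_cast this
  rw [ModularForm.slash_apply, hσ, hdet, coe_smul_of_det_pos hdetpos τ,
    abs_of_pos (by exact_mod_cast hD)]
  simp only [ContinuousAlgEquiv.refl_apply, neg_neg, zpow_natCast]
  rw [Polynomial.eval_eq_sum_range' (Nat.lt_succ_of_le hP)]
  unfold polyAct basePolyZ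
  rw [Polynomial.eval_finsetSum]
  have hz : (((a * d - b * c : ℤ) : ℂ)) ^ (w + 1) *
      ((((a * d - b * c : ℤ) : ℝ) : ℂ)) ^ (-(w : ℤ) - 1) = 1 := by
    have e1 : (((a * d - b * c : ℤ) : ℝ) : ℂ) = ((a * d - b * c : ℤ) : ℂ) := by push_cast; ring
    rw [e1] at hDne ⊢
    rw [← zpow_natCast, ← zpow_add₀ hDne]
    have : ((w + 1 : ℕ) : ℤ) + (-(w : ℤ) - 1) = 0 := by push_cast; ring
    rw [this, zpow_zero]
  calc _ = ∑ i ∈ range (w + 1), P.coeff i * (num g τ ^ i * denom g τ ^ (w - i)) := by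
        apply Finset.sum_congr rfl
        intro i _
        simp [hnum, hden]
    _ = (∑ i ∈ range (w + 1), P.coeff i * (num g τ / denom g τ) ^ i) * denom g τ ^ w := by
        rw [Finset.sum_mul]
        apply Finset.sum_congr rfl
        intro i hi
        have hi' : i ≤ w := Nat.lt_succ_iff.mp (Finset.mem_range.mp hi)
        have : denom g τ ^ w = denom g τ ^ i * denom g τ ^ (w - i) := by
          rw [← pow_add]; congr 1; omega
        rw [this, div_pow]
        field_simp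
    _ = _ := by
        linear_combination (-(∑ i ∈ range (w + 1), P.coeff i * (num g τ / denom g τ) ^ i) *
          denom g τ ^ w) * hz

section CoeffIn

variable {V : Type*} [AddCommGroup V] [Module ℂ V]

/-- All coefficient functionals of the polynomial-valued map `ρ` lie in the subgroup `Λ`. -/
def CoeffIn (Λ : Submodule ℤ (Module.Dual ℂ V)) (ρ : V → ℂ[X]) : Prop :=
  ∀ i : ℕ, ∃ l ∈ Λ, ∀ f : V, l f = (ρ f).coeff i

variable {Λ : Submodule ℤ (Module.Dual ℂ V)}

theorem CoeffIn.zero : CoeffIn Λ (fun _ : V => (0 : ℂ[X])) :=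
  fun _ => ⟨0, zero_mem _, fun _ => by simp⟩

theorem CoeffIn.add {ρ ρ' : V → ℂ[X]} (h : CoeffIn Λ ρ) (h' : CoeffIn Λ ρ') :
    CoeffIn Λ (fun f => ρ f + ρ' f) := by
  intro i
  obtain ⟨l, hl, hlf⟩ := h i
  obtain ⟨l', hl', hlf'⟩ := h' i
  exact ⟨l + l', add_mem hl hl', fun f => by simp [hlf, hlf']⟩

theorem CoeffIn.neg {ρ : V → ℂ[X]} (h : CoeffIn Λ ρ) : CoeffIn Λ (fun f => -ρ f) := by
  intro i
  obtain ⟨l, hl, hlf⟩ := h i
  exact ⟨-l, neg_mem hl, fun f => by simp [hlf]⟩

theorem CoeffIn.sum {ι : Type*} (s : Finset ι) {ρ : ι → V → ℂ[X]}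
    (h : ∀ x ∈ s, CoeffIn Λ (ρ x)) : CoeffIn Λ (fun f => ∑ x ∈ s, ρ x f) := by
  classical
  induction s using Finset.induction_on with
  | empty => simpa using CoeffIn.zero
  | insert a s ha ih =>
    have h1 := (h a (Finset.mem_insert_self a s)).add
      (ih fun x hx => h x (Finset.mem_insert_of_mem hx))
    intro i
    obtain ⟨l, hl, hlf⟩ := h1 i
    exact ⟨l, hl, fun f => by rw [hlf]; simp only [Finset.sum_insert ha]⟩

theorem CoeffIn.act {ρ : V → ℂ[X]} (h : CoeffIn Λ ρ) (w : ℕ) (a b c d : ℤ) :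
    CoeffIn Λ (fun f => polyAct w a b c d (ρ f)) := by
  intro n
  choose l hl hlf using h
  refine ⟨∑ i ∈ range (w + 1), ((basePolyZ w a b c d i).coeff n) • l i,
    Submodule.sum_mem _ fun i _ => Submodule.smul_mem _ _ (hl i), fun f => ?_⟩
  rw [coeff_polyAct, LinearMap.sum_apply]
  apply Finset.sum_congr rfl
  intro i _
  rw [LinearMap.smul_apply, hlf]

theorem CoeffIn.congr {ρ ρ' : V → ℂ[X]} (h : CoeffIn Λ ρ) (hρ : ∀ f, ρ' f = ρ f) :
    CoeffIn Λ ρ' := by
  intro i
  obtain ⟨l, hl, hlf⟩ := h i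
  exact ⟨l, hl, fun f => by rw [hlf, hρ]⟩

end CoeffIn

end Fermat.Agent.S22
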