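import Mathlib
import Fermat.Agent.S22.Analysis
import Fermat.Agent.S22.Period
import Fermat.Agent.S22.PolyAct
import Fermat.Prelude.Def_CuspForm_HeckeAlgebra
import Fermat.Prelude.Def_FLTPrelim_Modularity
import Fermat.Prelude.Thm_CongruenceSubgroup_one_mem_strictPeriods_Gamma0
import Fermat.Prelude.Thm_ModularFormClass_qCoeff_heckeT
import Fermat.Prelude.Thm_ModularFormClass_qCoeff_heckeU
import Fermat.Prelude.Thm_UpperHalfPlane_qCoeff_heckeT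
import Fermat.Prelude.Thm_UpperHalfPlane_qCoeff_heckeU
import Fermat.Prelude.Thm_UpperHalfPlane_eq_of_forall_qCoeff_eq
import Fermat.Prelude.Thm_ModularForm_periodic_heckeT_comp_ofComplex
import Fermat.Prelude.Thm_ModularForm_periodic_heckeU_comp_ofComplex
import Fermat.Prelude.Thm_ModularForm_isBoundedAtImInfty_heckeT
import Fermat.Prelude.Thm_ModularForm_isBoundedAtImInfty_heckeU

set_option autoImplicit false

open UpperHalfPlane hiding I
open Function Complex Filter Finset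
open scoped Manifold Real MatrixGroups ModularForm
open CongruenceSubgroup Matrix.SpecialLinearGroup

namespace Fermat.Agent.S22

variable {N : ℕ} {k : ℤ}

theorem hΓ (N : ℕ) : (1 : ℝ) ∈ (Subgroup.map (mapGL ℝ) (Gamma0 N)).strictPeriods :=
  CongruenceSubgroup.one_mem_strictPeriods_Gamma0 N

theorem cuspLike (f : CuspForm (Gamma0 N) k) : CuspLike 1 ⇑f where
  pos := one_pos
  per := SlashInvariantFormClass.periodic_comp_ofComplex f (hΓ N)
  hol := CuspFormClass.holo f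
  zero :=
    have : Fact (IsCusp OnePoint.infty (Subgroup.map (mapGL ℝ) (Gamma0 N))) :=
      ⟨Subgroup.isCusp_of_mem_strictPeriods one_pos (hΓ N)⟩
    CuspFormClass.zero_at_infty f

/-- The Eichler integral of a cusp form of weight `w + 2`. -/
noncomputable def EI (w : ℕ) (f : ℍ → ℂ) : ℍ → ℂ := eichlerH 1 f (w + 1)

theorem EI_smul (w : ℕ) (c : ℂ) (f : CuspForm (Gamma0 N) k) :
    EI w ⇑(c • f) = c • EI w ⇑f := by
  funext τ
  have h1 : ⇑(c • f) = c • ⇑f := by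
    ext z
    simp
  simp only [EI, eichlerH, h1, Pi.smul_apply, smul_eq_mul]
  exact eichler_smul (cuspLike f) c _ _

theorem qCoeff_EI (w : ℕ) (f : CuspForm (Gamma0 N) k) (n : ℕ) :
    ModularFormClass.qCoeff (EI w ⇑f) n = ModularFormClass.qCoeff ⇑f n / freq 1 n ^ (w + 1) :=
  qExpansion_eichlerH (cuspLike f) (w + 1) n

theorem qCoeff_smul (c : ℂ) (f : CuspForm (Gamma0 N) k) (n : ℕ) :
    ModularFormClass.qCoeff ⇑(c • f) n = c * ModularFormClass.qCoeff ⇑f n := by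
  have h1 : ⇑(c • f) = c • ⇑f := by
    ext z
    simp
  simp only [ModularFormClass.qCoeff, h1]
  rw [ModularForm.qExpansion_smul one_pos (hΓ N) c f]
  simp

theorem freq_mul (m n : ℕ) : freq 1 (m * n) = m * freq 1 n := by
  unfold freq
  push_cast
  ring

theorem EI_heckeT {w : ℕ} {p : ℕ} (hp : p.Prime) (hpN : ¬ p ∣ N)
    (f : CuspForm (Gamma0 N) ((w : ℤ) + 2)) :
    ModularForm.heckeT (-(w : ℤ)) p (EI w ⇑f) =
      ((p : ℂ) ^ (w + 1))⁻¹ • EI w ⇑(CuspForm.heckeTLin ((w : ℤ) + 2) hp hpN f) := by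
  have hp0 : (p : ℂ) ≠ 0 := by exact_mod_cast hp.ne_zero
  rw [← EI_smul]
  have hc := cuspLike f
  have hc' := cuspLike (((p : ℂ) ^ (w + 1))⁻¹ • CuspForm.heckeTLin ((w : ℤ) + 2) hp hpN f)
  apply UpperHalfPlane.eq_of_forall_qCoeff_eq
    (ModularForm.periodic_heckeT_comp_ofComplex (eichlerH_per hc _) _ _)
    (ModularForm.mdifferentiable_heckeT (eichlerH_hol hc _) _ _)
    (ModularForm.isBoundedAtImInfty_heckeT (eichlerH_bdd hc _) _ _)
    (eichlerH_per hc' _) (eichlerH_hol hc' _) (eichlerH_bdd hc' _)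
  intro n
  rw [UpperHalfPlane.qCoeff_heckeT (eichlerH_per hc _) (eichlerH_hol hc _) (eichlerH_bdd hc _)
    _ hp.ne_zero n, ModularForm.coeffHeckeT_apply]
  have key : ∀ (g : CuspForm (Gamma0 N) ((w : ℤ) + 2)) (m : ℕ),
      ModularFormClass.qCoeff (eichlerH 1 ⇑g (w + 1)) m =
        ModularFormClass.qCoeff ⇑g m / freq 1 m ^ (w + 1) := fun g m => qCoeff_EI w g m
  rw [key, key, key, qCoeff_smul, CuspForm.coe_heckeTLin_apply,
    ModularFormClass.qCoeff_heckeT f (hΓ N) hp.ne_zero n, ModularForm.coeffHeckeT_apply,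
    mul_comm n p, freq_mul]
  have e1 : ((w : ℤ) + 2 - 1) = ((w + 1 : ℕ) : ℤ) := by push_cast; ring
  have e2 : (-(w : ℤ) - 1) = -((w + 1 : ℕ) : ℤ) := by push_cast; ring
  rw [e1, e2, zpow_neg, zpow_natCast]
  by_cases hdvd : p ∣ n
  · obtain ⟨m, rfl⟩ := hdvd
    rw [if_pos (Dvd.intro m rfl), if_pos (Dvd.intro m rfl), Nat.mul_div_cancel_left _ hp.pos,
      freq_mul]
    rcases Nat.eq_zero_or_pos m with rfl | hm
    · simp [freq]
    · have hfm := freq_ne_zero one_pos hm.ne'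
      field_simp
      simp only [mul_pow]
      ring
  · rw [if_neg hdvd, if_neg hdvd]
    rcases Nat.eq_zero_or_pos n with rfl | hn
    · simp [freq]
    · have hfn := freq_ne_zero one_pos hn.ne'
      field_simp
      simp only [mul_pow]
      ring

theorem EI_heckeU [NeZero N] {w : ℕ} {p : ℕ} (hp : p.Prime) (hpN : p ∣ N)
    (f : CuspForm (Gamma0 N) ((w : ℤ) + 2)) :
    ModularForm.heckeU (-(w : ℤ)) p (EI w ⇑f) =
      ((p : ℂ) ^ (w + 1))⁻¹ • EI w ⇑(CuspForm.heckeULin ((w : ℤ) + 2) hpN f) := by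
  have hp0 : (p : ℂ) ≠ 0 := by exact_mod_cast hp.ne_zero
  rw [← EI_smul]
  have hc := cuspLike f
  have hc' := cuspLike (((p : ℂ) ^ (w + 1))⁻¹ • CuspForm.heckeULin ((w : ℤ) + 2) hpN f)
  apply UpperHalfPlane.eq_of_forall_qCoeff_eq
    (ModularForm.periodic_heckeU_comp_ofComplex (eichlerH_per hc _) _ _)
    (ModularForm.mdifferentiable_heckeU (eichlerH_hol hc _) _ _)
    (ModularForm.isBoundedAtImInfty_heckeU (eichlerH_bdd hc _) _ _)
    (eichlerH_per hc' _) (eichlerH_hol hc' _) (eichlerH_bdd hc' _)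
  intro n
  rw [UpperHalfPlane.qCoeff_heckeU (eichlerH_per hc _) (eichlerH_hol hc _) (eichlerH_bdd hc _)
    _ hp.ne_zero n, ModularForm.coeffHeckeU_apply]
  have key : ∀ (g : CuspForm (Gamma0 N) ((w : ℤ) + 2)) (m : ℕ),
      ModularFormClass.qCoeff (eichlerH 1 ⇑g (w + 1)) m =
        ModularFormClass.qCoeff ⇑g m / freq 1 m ^ (w + 1) := fun g m => qCoeff_EI w g m
  rw [key, key, qCoeff_smul, CuspForm.coe_heckeULin_apply,
    ModularFormClass.qCoeff_heckeU f (hΓ N) hp.ne_zero n, ModularForm.coeffHeckeU_apply,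
    mul_comm n p, freq_mul]
  rcases Nat.eq_zero_or_pos n with rfl | hn
  · simp [freq]
  · have hfn := freq_ne_zero one_pos hn.ne'
    field_simp
    simp only [mul_pow]
    ring

theorem det_mapGL (γ : SL(2, ℤ)) : (mapGL ℝ γ : GL (Fin 2) ℝ).val.det = 1 := by
  rw [← Matrix.GeneralLinearGroup.val_det_apply, Matrix.SpecialLinearGroup.det_mapGL]
  rfl

/-- The period polynomial of a cusp form. -/
noncomputable def rP (w : ℕ) (γ : SL(2, ℤ)) (f : ℍ → ℂ) : Polynomial ℂ :=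
  periodPoly 1 1 f f (mapGL ℝ γ) w

theorem natDegree_rP_le (w : ℕ) (γ : SL(2, ℤ)) (f : ℍ → ℂ) : (rP w γ f).natDegree ≤ w :=
  natDegree_periodPoly_le _ _

theorem eval_rP {w : ℕ} {γ : SL(2, ℤ)} (hγ : γ ∈ Gamma0 N)
    (f : CuspForm (Gamma0 N) ((w : ℤ) + 2)) (τ : ℍ) :
    (rP w γ ⇑f).eval (τ : ℂ) = EI w ⇑f τ - (EI w ⇑f ∣[-(w : ℤ)] (mapGL ℝ γ)) τ :=
  eval_periodPoly (cuspLike f) (cuspLike f) _ (det_mapGL γ) w
    (SlashInvariantFormClass.slash_action_eq f _ (Subgroup.mem_map_of_mem _ hγ)).symm τ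

/-- Coefficient functionals of period polynomials. -/
noncomputable def rCoeff (N : ℕ) (w : ℕ) (γ : SL(2, ℤ)) (i : ℕ) :
    Module.Dual ℂ (CuspForm (Gamma0 N) ((w : ℤ) + 2)) where
  toFun f := (rP w γ ⇑f).coeff i
  map_add' f g := by
    simp only [rP, FunLike.coe_add]
    rw [periodPoly_add (cuspLike f) (cuspLike g), Polynomial.coeff_add]
  map_smul' c f := by
    have h1 : ⇑(c • f) = c • ⇑f := by
      ext z
      simp
    simp only [rP, h1]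
    rw [periodPoly_smul (cuspLike f), Polynomial.coeff_C_mul]
    simp

/-- Evaluation of polynomials on the upper half plane. -/
noncomputable def ev (P : Polynomial ℂ) : ℍ → ℂ := fun τ => P.eval (τ : ℂ)

theorem val_mapGL (γ : SL(2, ℤ)) : (mapGL ℝ γ : GL (Fin 2) ℝ).val =
    !![((γ 0 0 : ℤ) : ℝ), ((γ 0 1 : ℤ) : ℝ); ((γ 1 0 : ℤ) : ℝ), ((γ 1 1 : ℤ) : ℝ)] := by
  ext i j
  fin_cases i <;> fin_cases j <;> simp

/-- The action of `SL(2, ℤ)` on polynomials. -/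
noncomputable def actSL (w : ℕ) (γ : SL(2, ℤ)) (P : Polynomial ℂ) : Polynomial ℂ :=
  polyAct w (γ 0 0) (γ 0 1) (γ 1 0) (γ 1 1) P

theorem ev_actSL (w : ℕ) (γ : SL(2, ℤ)) (P : Polynomial ℂ) (hP : P.natDegree ≤ w) :
    ev (actSL w γ P) = ev P ∣[-(w : ℤ)] (mapGL ℝ γ) := by
  funext τ
  have hdet : γ 0 0 * γ 1 1 - γ 0 1 * γ 1 0 = 1 := by
    have h := γ.det_coe
    rwa [Matrix.det_fin_two] at h
  have := eval_polyAct w (γ 0 0) (γ 0 1) (γ 1 0) (γ 1 1) (mapGL ℝ γ) (val_mapGL γ)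
    (by rw [hdet]; exact one_pos) P hP τ
  rw [hdet] at this
  simp only [Int.cast_one, one_pow, one_mul] at this
  exact this

theorem ev_rP {w : ℕ} {γ : SL(2, ℤ)} (hγ : γ ∈ Gamma0 N)
    (f : CuspForm (Gamma0 N) ((w : ℤ) + 2)) :
    ev (rP w γ ⇑f) = EI w ⇑f - EI w ⇑f ∣[-(w : ℤ)] (mapGL ℝ γ) :=
  funext fun τ => eval_rP hγ f τ

theorem ev_injective {P Q : Polynomial ℂ} (h : ev P = ev Q) : P = Q :=
  poly_eq_of_eval_uhp fun τ => congrFun h τ

theorem ev_add (P Q : Polynomial ℂ) : ev (P + Q) = ev P + ev Q := by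
  funext τ; simp [ev]

theorem ev_zero : ev 0 = 0 := by
  funext τ; simp [ev]

theorem ev_sum {ι : Type*} (s : Finset ι) (P : ι → Polynomial ℂ) :
    ev (∑ x ∈ s, P x) = ∑ x ∈ s, ev (P x) := by
  funext τ
  simp [ev, Polynomial.eval_finsetSum]

theorem rP_one {w : ℕ} (f : CuspForm (Gamma0 N) ((w : ℤ) + 2)) : rP w 1 ⇑f = 0 := by
  apply ev_injective
  rw [ev_rP (one_mem _) f, map_one, SlashAction.slash_one, sub_self, ev_zero]

theorem rP_mul {w : ℕ} {γ δ : SL(2, ℤ)} (hγ : γ ∈ Gamma0 N) (hδ : δ ∈ Gamma0 N)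
    (f : CuspForm (Gamma0 N) ((w : ℤ) + 2)) :
    rP w (γ * δ) ⇑f = rP w δ ⇑f + actSL w δ (rP w γ ⇑f) := by
  apply ev_injective
  rw [ev_add, ev_actSL w δ _ (natDegree_rP_le _ _ _), ev_rP (mul_mem hγ hδ) f, ev_rP hγ f,
    ev_rP hδ f, map_mul, SlashAction.slash_mul]
  have h1 : (EI w ⇑f - EI w ⇑f ∣[-(w : ℤ)] (mapGL ℝ γ)) ∣[-(w : ℤ)] (mapGL ℝ δ) =
      EI w ⇑f ∣[-(w : ℤ)] (mapGL ℝ δ) -
        (EI w ⇑f ∣[-(w : ℤ)] (mapGL ℝ γ)) ∣[-(w : ℤ)] (mapGL ℝ δ) := by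
    rw [sub_eq_add_neg, SlashAction.add_slash, SlashAction.neg_slash, ← sub_eq_add_neg]
  rw [h1]
  abel

theorem rP_inv {w : ℕ} {γ : SL(2, ℤ)} (hγ : γ ∈ Gamma0 N)
    (f : CuspForm (Gamma0 N) ((w : ℤ) + 2)) :
    rP w γ⁻¹ ⇑f = -actSL w γ⁻¹ (rP w γ ⇑f) := by
  have h1 := rP_mul hγ (inv_mem hγ) f
  rw [mul_inv_cancel, rP_one] at h1
  exact eq_neg_of_add_eq_zero_left h1.symm

theorem coeffIn_of_closure {w : ℕ} (G : Set SL(2, ℤ)) (hG : Subgroup.closure G = Gamma0 N)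
    (Λ : Submodule ℤ (Module.Dual ℂ (CuspForm (Gamma0 N) ((w : ℤ) + 2))))
    (hΛ : ∀ g ∈ G, ∀ i, rCoeff N w g i ∈ Λ) :
    ∀ γ ∈ Gamma0 N, CoeffIn Λ (fun f : CuspForm (Gamma0 N) ((w : ℤ) + 2) => rP w γ ⇑f) := by
  intro γ hγ
  rw [← hG] at hγ
  induction hγ using Subgroup.closure_induction with
  | mem x hx => exact fun i => ⟨rCoeff N w x i, hΛ x hx i, fun f => rfl⟩
  | one => exact CoeffIn.zero.congr fun f => rP_one f
  | mul x y hx hy ihx ihy =>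
    rw [hG] at hx hy
    exact (ihy.add (ihx.act w _ _ _ _)).congr fun f => rP_mul hx hy f
  | inv x hx ih =>
    rw [hG] at hx
    exact (ih.act w _ _ _ _).neg.congr fun f => rP_inv hx f

theorem smul_slash_mapGL (k : ℤ) (γ : SL(2, ℤ)) (c : ℂ) (F : ℍ → ℂ) :
    (c • F) ∣[k] (mapGL ℝ γ) = c • (F ∣[k] (mapGL ℝ γ)) := by
  funext τ
  rw [slash_apply_of_det_one _ _ _ (det_mapGL γ), Pi.smul_apply, Pi.smul_apply,
    slash_apply_of_det_one _ _ _ (det_mapGL γ)]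
  simp [mul_assoc]

theorem sub_slash' (k : ℤ) (g : GL (Fin 2) ℝ) (F G : ℍ → ℂ) :
    (F - G) ∣[k] g = F ∣[k] g - G ∣[k] g := by
  rw [sub_eq_add_neg, SlashAction.add_slash, SlashAction.neg_slash, ← sub_eq_add_neg]

theorem rP_hecke_general {w : ℕ} {ι : Type*} [Fintype ι] (α : ι → GL (Fin 2) ℝ)
    (a b c d : ι → ℤ) (D : ℤ) (hD : 0 < D)
    (hα : ∀ x, (α x).val = !![(a x : ℝ), (b x : ℝ); (c x : ℝ), (d x : ℝ)])
    (hdet : ∀ x, a x * d x - b x * c x = D)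
    (σ : Equiv.Perm ι) {γ : SL(2, ℤ)} (hγ : γ ∈ Gamma0 N) (γ' : ι → SL(2, ℤ))
    (hγ' : ∀ x, γ' x ∈ Gamma0 N)
    (hmul : ∀ x, α x * mapGL ℝ γ = mapGL ℝ (γ' x) * α (σ x))
    (f f' : CuspForm (Gamma0 N) ((w : ℤ) + 2))
    (hff' : ∑ x, EI w ⇑f ∣[-(w : ℤ)] α x = ((D : ℂ) ^ (w + 1))⁻¹ • EI w ⇑f') :
    rP w γ ⇑f' =
      ∑ x, polyAct w (a (σ x)) (b (σ x)) (c (σ x)) (d (σ x)) (rP w (γ' x) ⇑f) := by
  have hDne : ((D : ℂ) ^ (w + 1)) ≠ 0 := by
    apply pow_ne_zero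
    exact_mod_cast hD.ne'
  have hE' : EI w ⇑f' = ((D : ℂ) ^ (w + 1)) • ∑ x, EI w ⇑f ∣[-(w : ℤ)] α x := by
    rw [hff', smul_smul, mul_inv_cancel₀ hDne, one_smul]
  apply ev_injective
  rw [ev_rP hγ f', ev_sum]
  have hterm : ∀ x, ev (polyAct w (a (σ x)) (b (σ x)) (c (σ x)) (d (σ x)) (rP w (γ' x) ⇑f)) =
      ((D : ℂ) ^ (w + 1)) • (EI w ⇑f ∣[-(w : ℤ)] α (σ x) -
        (EI w ⇑f ∣[-(w : ℤ)] α x) ∣[-(w : ℤ)] (mapGL ℝ γ)) := by
    intro x
    have h1 : ev (polyAct w (a (σ x)) (b (σ x)) (c (σ x)) (d (σ x)) (rP w (γ' x) ⇑f)) =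
        ((D : ℂ) ^ (w + 1)) • (ev (rP w (γ' x) ⇑f) ∣[-(w : ℤ)] α (σ x)) := by
      funext τ
      have := eval_polyAct w (a (σ x)) (b (σ x)) (c (σ x)) (d (σ x)) (α (σ x)) (hα (σ x))
        (by rw [hdet]; exact hD) (rP w (γ' x) ⇑f) (natDegree_rP_le _ _ _) τ
      rw [hdet] at this
      exact this
    rw [h1, ev_rP (hγ' x) f, sub_slash', ← SlashAction.slash_mul, ← hmul x,
      SlashAction.slash_mul]
  simp only [hterm]
  rw [← Finset.smul_sum, Finset.sum_sub_distrib, Equiv.sum_comp σ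
    (fun x => EI w ⇑f ∣[-(w : ℤ)] α x), hE', smul_slash_mapGL, SlashAction.sum_slash, smul_sub]

open P2MW.S_ModularForm_heckeT_slash_eq_self_of_mem_Gamma0.ModularForm.HeckeSlashInvariance in
theorem coeffIn_heckeT {w : ℕ}
    (Λ : Submodule ℤ (Module.Dual ℂ (CuspForm (Gamma0 N) ((w : ℤ) + 2))))
    (hΛ : ∀ γ ∈ Gamma0 N, CoeffIn Λ (fun f : CuspForm (Gamma0 N) ((w : ℤ) + 2) => rP w γ ⇑f))
    {p : ℕ} (hp : p.Prime) (hpN : ¬ p ∣ N) {γ : SL(2, ℤ)} (hγ : γ ∈ Gamma0 N) :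
    CoeffIn Λ (fun f : CuspForm (Gamma0 N) ((w : ℤ) + 2) =>
      rP w γ ⇑(CuspForm.heckeTLin ((w : ℤ) + 2) hp hpN f)) := by
  have : Fact p.Prime := ⟨hp⟩
  have : NeZero p := ⟨hp.ne_zero⟩
  have hcN : (N : ℤ) ∣ γ 1 0 :=
    (ZMod.intCast_zmod_eq_zero_iff_dvd _ _).mp (CongruenceSubgroup.Gamma0_mem.mp hγ)
  choose γ' hγ'N hmul using heckeRep_mul hpN γ hcN
  have hγ' : ∀ x, γ' x ∈ Gamma0 N := fun x =>
    CongruenceSubgroup.Gamma0_mem.mpr ((ZMod.intCast_zmod_eq_zero_iff_dvd _ _).mpr (hγ'N x))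
  let a : OnePoint (ZMod p) → ℤ := fun x => x.elim (p : ℤ) (fun _ => 1)
  let b : OnePoint (ZMod p) → ℤ := fun x => x.elim 0 (fun j => (j.val : ℤ))
  let c : OnePoint (ZMod p) → ℤ := fun _ => 0
  let d : OnePoint (ZMod p) → ℤ := fun x => x.elim 1 (fun _ => (p : ℤ))
  have hα : ∀ x, (heckeRep p x).val = !![(a x : ℝ), (b x : ℝ); (c x : ℝ), (d x : ℝ)] := by
    intro x
    induction x using OnePoint.rec with
    | infty =>
      rw [heckeRep_infty, ModularForm.val_heckeDiagMatrix hp.ne_zero]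
      simp [a, b, c, d]
    | coe j =>
      rw [heckeRep_coe, ModularForm.val_heckeMatrix hp.ne_zero]
      simp [a, b, c, d]
  have hdet : ∀ x, a x * d x - b x * c x = (p : ℤ) := by
    intro x
    induction x using OnePoint.rec with
    | infty => simp [a, b, c, d]
    | coe j => simp [a, b, c, d]
  refine (CoeffIn.sum Finset.univ (fun x _ => (hΛ (γ' x) (hγ' x)).act w
    (a (MulAction.toPerm (redMatrix p γ) x)) (b (MulAction.toPerm (redMatrix p γ) x))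
    (c (MulAction.toPerm (redMatrix p γ) x)) (d (MulAction.toPerm (redMatrix p γ) x)))).congr
    fun f => ?_
  refine rP_hecke_general (heckeRep p) a b c d (p : ℤ) (by exact_mod_cast hp.pos) hα hdet
    (MulAction.toPerm (redMatrix p γ)) hγ γ' hγ' hmul f _ ?_
  rw [← heckeT_eq_sum_onePoint, EI_heckeT hp hpN f]
  simp

open P2MW.S_ModularForm_heckeT_slash_eq_self_of_mem_Gamma0.ModularForm.HeckeSlashInvariance in
theorem coeffIn_heckeU [NeZero N] {w : ℕ}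
    (Λ : Submodule ℤ (Module.Dual ℂ (CuspForm (Gamma0 N) ((w : ℤ) + 2))))
    (hΛ : ∀ γ ∈ Gamma0 N, CoeffIn Λ (fun f : CuspForm (Gamma0 N) ((w : ℤ) + 2) => rP w γ ⇑f))
    {p : ℕ} (hp : p.Prime) (hpN : p ∣ N) {γ : SL(2, ℤ)} (hγ : γ ∈ Gamma0 N) :
    CoeffIn Λ (fun f : CuspForm (Gamma0 N) ((w : ℤ) + 2) =>
      rP w γ ⇑(CuspForm.heckeULin ((w : ℤ) + 2) hpN f)) := by
  have : NeZero p := ⟨hp.ne_zero⟩
  have hcN : (N : ℤ) ∣ γ 1 0 :=
    (ZMod.intCast_zmod_eq_zero_iff_dvd _ _).mp (CongruenceSubgroup.Gamma0_mem.mp hγ)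
  have hc : (p : ℤ) ∣ γ 1 0 := (Int.natCast_dvd_natCast.mpr hpN).trans hcN
  choose γ' hγ'N hmul using heckeMatrix_mul_of_dvd γ hc
  have hγ' : ∀ x, γ' x ∈ Gamma0 N := fun x => by
    rw [CongruenceSubgroup.Gamma0_mem, hγ'N x]
    push_cast
    rw [CongruenceSubgroup.Gamma0_mem.mp hγ, mul_zero]
  let a : ZMod p → ℤ := fun _ => 1
  let b : ZMod p → ℤ := fun j => (j.val : ℤ)
  let c : ZMod p → ℤ := fun _ => 0
  let d : ZMod p → ℤ := fun _ => (p : ℤ)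
  have hα : ∀ x : ZMod p, (ModularForm.heckeMatrix p x.val).val =
      !![(a x : ℝ), (b x : ℝ); (c x : ℝ), (d x : ℝ)] := by
    intro x
    rw [ModularForm.val_heckeMatrix hp.ne_zero]
    simp [a, b, c, d]
  have hdet : ∀ x, a x * d x - b x * c x = (p : ℤ) := by
    intro x
    simp [a, b, c, d]
  set σ := affinePerm γ ((ZMod.intCast_zmod_eq_zero_iff_dvd _ _).mpr hc) with hσ
  refine (CoeffIn.sum Finset.univ (fun x _ => (hΛ (γ' x) (hγ' x)).act w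
    (a (σ x)) (b (σ x)) (c (σ x)) (d (σ x)))).congr fun f => ?_
  refine rP_hecke_general (fun x : ZMod p => ModularForm.heckeMatrix p x.val) a b c d (p : ℤ)
    (by exact_mod_cast hp.pos) hα hdet σ hγ γ' hγ' hmul f _ ?_
  rw [← heckeU_eq_sum_zmod, EI_heckeU hp hpN f]
  simp

end Fermat.Agent.S22
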