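import Mathlib
import Fermat.Agent.S22.Core
import Fermat.Agent.S22.Forms

set_option autoImplicit false

open UpperHalfPlane hiding I
open scoped MatrixGroups ModularForm
open CongruenceSubgroup Matrix.SpecialLinearGroup

namespace Fermat.Agent.S22

noncomputable section

variable {N : ℕ}

theorem fg_SL2Z : Group.FG SL(2, ℤ) := by
  classical
  refine ⟨⟨{ModularGroup.S, ModularGroup.T}, ?_⟩⟩
  simpa using SpecialLinearGroup.SL2Z_generators

theorem fg_Gamma0 (N : ℕ) [NeZero N] : (Gamma0 N).FG :=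
  have := fg_SL2Z
  (Group.fg_iff_subgroup_fg _).mp (Subgroup.fg_of_index_ne_zero _)

/-- a finite generating set of `Γ₀(N)` -/
def gens (N : ℕ) [NeZero N] : Finset SL(2, ℤ) := (fg_Gamma0 N).choose

theorem closure_gens (N : ℕ) [NeZero N] :
    Subgroup.closure (gens N : Set SL(2, ℤ)) = Gamma0 N :=
  (fg_Gamma0 N).choose_spec

theorem gens_mem {N : ℕ} [NeZero N] {g : SL(2, ℤ)} (hg : g ∈ gens N) : g ∈ Gamma0 N := by
  rw [← closure_gens N]
  exact Subgroup.subset_closure hg

/-- the period lattice -/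
def perLattice (N w : ℕ) [NeZero N] :
    Submodule ℤ (Module.Dual ℂ (CuspForm (Gamma0 N) ((w : ℤ) + 2))) :=
  Submodule.span ℤ
    ((fun x : SL(2, ℤ) × ℕ => rCoeff N w x.1 x.2) ''
      ((gens N : Set SL(2, ℤ)) ×ˢ (Finset.range (w + 1) : Set ℕ)))

theorem perLattice_fg (N w : ℕ) [NeZero N] : (perLattice N w).FG := by
  apply Submodule.fg_span
  apply Set.Finite.image
  exact (Finset.finite_toSet _).prod (Finset.finite_toSet _)

theorem rCoeff_mem [NeZero N] {w : ℕ} {g : SL(2, ℤ)} (hg : g ∈ gens N) (j : ℕ) :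
    rCoeff N w g j ∈ perLattice N w := by
  by_cases hj : j < w + 1
  · apply Submodule.subset_span
    exact ⟨(g, j), ⟨hg, by simpa using hj⟩, rfl⟩
  · have : rCoeff N w g j = 0 := by
      ext f
      show (rP w g ⇑f).coeff j = 0
      apply Polynomial.coeff_eq_zero_of_natDegree_lt
      have := natDegree_rP_le w g ⇑f
      omega
    rw [this]
    exact Submodule.zero_mem _

theorem rP_coeffIn [NeZero N] (w : ℕ) : ∀ γ ∈ Gamma0 N,
    CoeffIn (perLattice N w) (fun f : CuspForm (Gamma0 N) ((w : ℤ) + 2) => rP w γ ⇑f) :=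
  coeffIn_of_closure (gens N : Set SL(2, ℤ)) (closure_gens N) (perLattice N w)
    (fun _ hg i => rCoeff_mem hg i)

/-- stability of the period lattice under an operator `T` for which all `rP γ (T f)` are integral -/
theorem stab_of_coeffIn [NeZero N] {w : ℕ}
    (T : Module.End ℂ (CuspForm (Gamma0 N) ((w : ℤ) + 2)))
    (hT : ∀ γ ∈ Gamma0 N, CoeffIn (perLattice N w)
      (fun f : CuspForm (Gamma0 N) ((w : ℤ) + 2) => rP w γ ⇑(T f))) :
    ∀ l ∈ perLattice N w, l ∘ₗ T ∈ perLattice N w := by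
  intro l hl
  induction hl using Submodule.span_induction with
  | mem l hl =>
    obtain ⟨⟨g, j⟩, ⟨hg, _⟩, rfl⟩ := hl
    obtain ⟨l', hl', h⟩ := hT g (gens_mem hg) j
    have : rCoeff N w g j ∘ₗ T = l' := by
      ext f
      exact (h f).symm
    show rCoeff N w g j ∘ₗ T ∈ _
    rw [this]
    exact hl'
  | zero => simp
  | add x y _ _ hx hy =>
    rw [LinearMap.add_comp]
    exact Submodule.add_mem _ hx hy
  | smul a x _ hx =>
    have : (a • x) ∘ₗ T = a • (x ∘ₗ T) := by
      ext f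
      simp
    rw [this]
    exact Submodule.smul_mem _ _ hx

/-- assembly, given the separation statement -/
theorem finite_of_sep (N : ℕ) [NeZero N] (w : ℕ) (S : Set ℕ)
    (hsep : ∀ f : CuspForm (Gamma0 N) ((w : ℤ) + 2), (∀ γ ∈ Gamma0 N, rP w γ ⇑f = 0) → f = 0) :
    Module.Finite ℤ (CuspForm.heckeAlgebra N ((w : ℤ) + 2) S) := by
  unfold CuspForm.heckeAlgebra
  apply finite_adjoin_of_lattice _ (perLattice N w) (perLattice_fg N w)
  · intro f hf
    apply hsep f
    intro γ hγ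
    ext i
    obtain ⟨l, hl, h⟩ := rP_coeffIn w γ hγ i
    rw [← h f, hf l hl, Polynomial.coeff_zero]
  · rintro T (⟨ℓ, hℓ, hℓN, -, rfl⟩ | ⟨q, hqN, hq, -, rfl⟩)
    · exact stab_of_coeffIn _ (fun γ hγ => coeffIn_heckeT _ (rP_coeffIn w) hℓ hℓN hγ)
    · exact stab_of_coeffIn _ (fun γ hγ => coeffIn_heckeU _ (rP_coeffIn w) hq hqN hγ)

end

end Fermat.Agent.S22
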