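import Mathlib
import Fermat.Agent.S22.Forms
import Fermat.Prelude.Thm_Subgroup_IsArithmetic_exists_nat_mem_strictPeriods_conj

set_option autoImplicit false

open UpperHalfPlane hiding I
open Function Complex Filter Finset
open scoped Manifold Real MatrixGroups ModularForm Pointwise
open CongruenceSubgroup Matrix.SpecialLinearGroup

namespace Fermat.Agent.S22

variable {N : ℕ} {k : ℤ}

/-- A polynomial which is periodic on the upper half plane is constant. -/
theorem ev_const_of_periodic (P : Polynomial ℂ) {h : ℝ} (hh : h ≠ 0)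
    (hP : Function.Periodic (ev P ∘ ofComplex) h) : P = Polynomial.C (P.eval Complex.I) := by
  have h1 : ∀ n : ℕ, P.eval (Complex.I + n * h) = P.eval Complex.I := by
    intro n
    have h2 := hP.nat_mul n Complex.I
    have him : 0 < (Complex.I + n * h).im := by simp
    have him' : 0 < (Complex.I).im := by simp
    simp only [comp_apply, ofComplex_apply_of_im_pos him, ofComplex_apply_of_im_pos him', ev] at h2
    exact h2
  rw [← sub_eq_zero]
  apply Polynomial.eq_zero_of_infinite_isRoot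
  have hinj : Function.Injective (fun n : ℕ => Complex.I + n * h) := by
    intro a b hab
    have hh' : (h : ℂ) ≠ 0 := by exact_mod_cast hh
    simpa [hh'] using hab
  refine (Set.infinite_range_of_injective hinj).mono ?_
  rintro _ ⟨n, rfl⟩
  simp [Polynomial.IsRoot, h1 n]

/-- Translates of cusp forms are `CuspLike`. -/
theorem cuspLike_translate (f : CuspForm (Gamma0 N) k) (σ : SL(2, ℤ)) {M : ℕ} (hM : 0 < M)
    (hper : (M : ℝ) ∈ (ConjAct.toConjAct (mapGL ℝ σ⁻¹) •
      (Subgroup.map (mapGL ℝ) (Gamma0 N))).strictPeriods) :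
    CuspLike M (⇑f ∣[k] (mapGL ℝ σ)) := by
  have hM' : (0 : ℝ) < M := by exact_mod_cast hM
  have hper' : (M : ℝ) ∈ (ConjAct.toConjAct (mapGL ℝ σ : GL (Fin 2) ℝ)⁻¹ •
      (Subgroup.map (mapGL ℝ) (Gamma0 N))).strictPeriods := by
    rwa [← map_inv]
  refine ⟨hM', ?_, ?_, ?_⟩
  · exact SlashInvariantFormClass.periodic_comp_ofComplex (CuspForm.translate f (mapGL ℝ σ)) hper'
  · exact CuspFormClass.holo (CuspForm.translate f (mapGL ℝ σ))
  · have : Fact (IsCusp OnePoint.infty (ConjAct.toConjAct (mapGL ℝ σ : GL (Fin 2) ℝ)⁻¹ •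
      (Subgroup.map (mapGL ℝ) (Gamma0 N)))) := ⟨Subgroup.isCusp_of_mem_strictPeriods hM' hper'⟩
    exact CuspFormClass.zero_at_infty (CuspForm.translate f (mapGL ℝ σ))

/-- The Eichler integral as a slash invariant form, if all period polynomials vanish. -/
noncomputable def EIsif {w : ℕ} (f : CuspForm (Gamma0 N) ((w : ℤ) + 2))
    (h : ∀ γ ∈ Gamma0 N, rP w γ ⇑f = 0) :
    SlashInvariantForm (Subgroup.map (mapGL ℝ) (Gamma0 N)) (-(w : ℤ)) where
  toFun := EI w ⇑f
  slash_action_eq' g hg := by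
    obtain ⟨γ, hγ, rfl⟩ := hg
    have h1 := ev_rP hγ f
    rw [h γ hγ, ev_zero] at h1
    exact (sub_eq_zero.mp h1.symm).symm

theorem EI_slash_bdd [NeZero N] {w : ℕ} (f : CuspForm (Gamma0 N) ((w : ℤ) + 2))
    (h : ∀ γ ∈ Gamma0 N, rP w γ ⇑f = 0) (σ : SL(2, ℤ)) :
    IsBoundedAtImInfty (EI w ⇑f ∣[-(w : ℤ)] (mapGL ℝ σ)) := by
  obtain ⟨M, hM, hconj⟩ := Subgroup.IsArithmetic.exists_nat_mem_strictPeriods_conj
    (Subgroup.map (mapGL ℝ) (Gamma0 N))
  have hM' : (0 : ℝ) < M := by exact_mod_cast hM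
  have hper := hconj σ⁻¹
  have hper' : (M : ℝ) ∈ (ConjAct.toConjAct (mapGL ℝ σ : GL (Fin 2) ℝ)⁻¹ •
      (Subgroup.map (mapGL ℝ) (Gamma0 N))).strictPeriods := by
    rwa [← map_inv]
  have hF' := cuspLike_translate f σ hM hper
  set F' := ⇑f ∣[(w : ℤ) + 2] (mapGL ℝ σ) with hF'def
  set R := periodPoly 1 M ⇑f F' (mapGL ℝ σ) w with hR
  have hev : ev R = eichlerH M F' (w + 1) - EI w ⇑f ∣[-(w : ℤ)] (mapGL ℝ σ) :=
    funext fun τ => eval_periodPoly (cuspLike f) hF' _ (det_mapGL σ) w rfl τ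
  have hp1 : Function.Periodic ((EI w ⇑f ∣[-(w : ℤ)] (mapGL ℝ σ)) ∘ ofComplex) M :=
    SlashInvariantFormClass.periodic_comp_ofComplex
      (SlashInvariantForm.translate (EIsif f h) (mapGL ℝ σ)) hper'
  have hp2 := eichlerH_per hF' (w + 1)
  have hp : Function.Periodic (ev R ∘ ofComplex) M := by
    rw [hev]
    exact hp2.sub hp1
  have hc := ev_const_of_periodic R hM'.ne' hp
  have h3 : EI w ⇑f ∣[-(w : ℤ)] (mapGL ℝ σ) =
      eichlerH M F' (w + 1) - fun _ => R.eval Complex.I := by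
    have h4 : ev R = fun _ => R.eval Complex.I := by
      funext τ
      unfold ev
      conv_lhs => rw [hc]
      simp
    rw [← h4, hev]
    abel
  rw [h3]
  exact (eichlerH_bdd hF' (w + 1)).sub (Filter.const_boundedAtFilter _ _)

/-- The Eichler integral as a modular form of weight `-w`, if all period polynomials vanish. -/
noncomputable def EImf [NeZero N] {w : ℕ} (f : CuspForm (Gamma0 N) ((w : ℤ) + 2))
    (h : ∀ γ ∈ Gamma0 N, rP w γ ⇑f = 0) :
    ModularForm (Subgroup.map (mapGL ℝ) (Gamma0 N)) (-(w : ℤ)) where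
  toSlashInvariantForm := EIsif f h
  holo' := eichlerH_hol (cuspLike f) (w + 1)
  bdd_at_cusps' hc := by
    rw [Subgroup.IsArithmetic.isCusp_iff_isCusp_SL2Z] at hc
    rw [OnePoint.isBoundedAt_iff_forall_SL2Z hc]
    intro γ _
    exact EI_slash_bdd f h γ

/-- Separation: a cusp form all of whose period polynomials vanish is zero. -/
theorem eq_zero_of_rP_eq_zero [NeZero N] {w : ℕ} (f : CuspForm (Gamma0 N) ((w : ℤ) + 2))
    (h : ∀ γ ∈ Gamma0 N, rP w γ ⇑f = 0) : f = 0 := by
  have hconst : ∃ c : ℂ, ∀ τ : ℍ, EI w ⇑f τ = c := by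
    rcases Nat.eq_zero_or_pos w with rfl | hw
    · obtain ⟨c, hc⟩ := ModularForm.eq_const_of_weight_zero
        (ModularForm.mcast (by simp) (EImf f h))
      exact ⟨c, fun τ => congrFun hc τ⟩
    · have h0 := ModularForm.isZero_of_neg_weight (k := -(w : ℤ)) (by omega) (EImf f h)
      exact ⟨0, fun τ => congrArg (fun g : ModularForm _ _ => g τ) h0⟩
  obtain ⟨c, hc⟩ := hconst
  ext τ
  exact eq_zero_of_eichler_const (cuspLike f) w c hc τ

end Fermat.Agent.S22
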