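import Mathlib
import Fermat.Prelude.Def_CuspForm_HeckeAlgebra
import Fermat.Prelude.Thm_ModularForm_sturm_bound_Gamma0

set_option autoImplicit false

namespace Fermat.Agent.S22

open UpperHalfPlane
open scoped MatrixGroups ModularForm

theorem small_eq_zero_of_nonpos (N : ℕ) [NeZero N] (k : ℤ) (hk : k ≤ 0)
    (f : CuspForm (CongruenceSubgroup.Gamma0 N) k) : f = 0 := by
  have h1 : (1 : ℝ) ∈ (CongruenceSubgroup.Gamma0 N : Subgroup (GL (Fin 2) ℝ)).strictPeriods := by
    simp [CongruenceSubgroup.strictPeriods_Gamma0]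
  have hz : CuspForm.toModularFormₗ f = 0 := by
    apply ModularForm.sturm_bound_Gamma0 N
    intro n hn
    have hn0 : n = 0 := by
      have h2 : k * ((CongruenceSubgroup.Gamma0 N).index : ℤ) ≤ 0 :=
        mul_nonpos_of_nonpos_of_nonneg hk (by positivity)
      have : (k * ((CongruenceSubgroup.Gamma0 N).index : ℤ)).toNat = 0 := by
        omega
      rw [this] at hn
      omega
    subst hn0
    exact CuspFormClass.qExpansion_coeff_zero f one_pos h1
  exact CuspForm.toModularFormₗ_injective (by rw [hz, _root_.map_zero])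

theorem small_eq_zero_of_one (N : ℕ) (f : CuspForm (CongruenceSubgroup.Gamma0 N) 1) : f = 0 := by
  have hmem : (-1 : SL(2, ℤ)) ∈ CongruenceSubgroup.Gamma0 N := by
    rw [CongruenceSubgroup.Gamma0_mem]
    simp
  have h := SlashInvariantFormClass.slash_action_eq f _
    (Subgroup.mem_map_of_mem (Matrix.SpecialLinearGroup.mapGL ℝ) hmem)
  ext τ
  have h2 : ((f : ℍ → ℂ) ∣[(1 : ℤ)] (-1 : SL(2, ℤ))) τ = f τ := congrFun h τ
  rw [ModularForm.SL_slash_apply] at h2
  have h3 : ((-1 : SL(2, ℤ)) • τ) = τ := by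
    ext
    simp [UpperHalfPlane.specialLinearGroup_apply]
  have h4 : denom ((-1 : SL(2, ℤ)) : GL (Fin 2) ℝ) τ = -1 := by
    simp [UpperHalfPlane.denom]
  rw [h3, h4] at h2
  have h5 : f τ * (-1 : ℂ) ^ (-(1 : ℤ)) = - f τ := by
    rw [zpow_neg_one]; norm_num
  rw [h5] at h2
  have h6 : f τ + f τ = 0 := by
    nth_rewrite 1 [← h2]
    ring
  have h7 : (2 : ℂ) * f τ = 0 := by rw [two_mul]; exact h6
  simpa using h7

/-- weights `k ≤ 1`: no cusp forms (`k ≤ 0` by Sturm, `k = 1` since `-1 ∈ Γ₀(N)`). -/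
theorem subsingleton_of_le_one (N : ℕ) [NeZero N] (k : ℤ) (hk : k ≤ 1) :
    Subsingleton (CuspForm (CongruenceSubgroup.Gamma0 N) k) := by
  refine ⟨fun a b => ?_⟩
  rcases (show k ≤ 0 ∨ k = 1 by omega) with h | rfl
  · rw [small_eq_zero_of_nonpos N k h a, small_eq_zero_of_nonpos N k h b]
  · rw [small_eq_zero_of_one N a, small_eq_zero_of_one N b]

end Fermat.Agent.S22
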